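import Mathlib
import Fermat.Agent.S13.TwoAdic.Frey2

/-!
# S13 / TwoAdic / SlopeH (owner helper18): SORRY-FREE standalone proofs of the chord rules
`xco_add_of_ne`, `xco_sub_of_ne`, of `eq_or_eq_neg_of_xco` and of ALL fields of `freyXModel`
(for `TwoAdic/Frey2.lean`, owner helper17).

Everything here only uses the part of `Frey2.lean` that is already proved there
(`nonsingular_iff`, `negY_eq`, `neg_some'`, `fb₂_eq`, `frey_a₂'`, `frey_a₄'`) and S05's `frey_a₁`,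
so each proof below can be pasted verbatim into `Frey2.lean` (inside
`namespace Fermat.Agent.S13.TwoAdic`, where the primed names lose their prime).
-/

set_option autoImplicit false

open WeierstrassCurve WeierstrassCurve.Affine

noncomputable section

namespace Fermat.Agent.S13.TwoAdic.SlopeH

open Fermat.Agent.S05 (freyQb cA cB)
open Fermat.Agent.S13.TwoAdic

variable (P : FreyPackage)

/-- Chord rule (same statement as `TwoAdic.xco_add_of_ne`). -/
theorem xco_add_of_ne' {x₁ y₁ x₂ y₂ : Qb} (h₁ : (freyQb P).Nonsingular x₁ y₁)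
    (h₂ : (freyQb P).Nonsingular x₂ y₂) (hne : x₁ ≠ x₂) :
    xco P (Point.some x₁ y₁ h₁ + Point.some x₂ y₂ h₂) =
      some (((y₁ - y₂) / (x₁ - x₂)) ^ 2 + (y₁ - y₂) / (x₁ - x₂) - fa₂ P - x₁ - x₂) := by
  rw [Point.add_of_X_ne hne]
  show some ((freyQb P).addX x₁ x₂ ((freyQb P).slope x₁ x₂ y₁ y₂)) = _
  rw [Affine.slope_of_X_ne hne, Affine.addX, Fermat.Agent.S05.frey_a₁, frey_a₂', one_mul]

/-- Chord rule for the difference (same statement as `TwoAdic.xco_sub_of_ne`). -/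
theorem xco_sub_of_ne' {x₁ y₁ x₂ y₂ : Qb} (h₁ : (freyQb P).Nonsingular x₁ y₁)
    (h₂ : (freyQb P).Nonsingular x₂ y₂) (hne : x₁ ≠ x₂) :
    xco P (Point.some x₁ y₁ h₁ - Point.some x₂ y₂ h₂) =
      some (((y₁ + y₂ + x₂) / (x₁ - x₂)) ^ 2 + (y₁ + y₂ + x₂) / (x₁ - x₂) - fa₂ P - x₁ - x₂) := by
  obtain ⟨h', he⟩ := neg_some' P h₂
  rw [sub_eq_add_neg, he, xco_add_of_ne' P h₁ h' hne]
  have e : y₁ - (-y₂ - x₂) = y₁ + y₂ + x₂ := by ring
  rw [e]

/-- Two points with the same `x` are equal or opposite (same statement as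
`TwoAdic.eq_or_eq_neg_of_xco`). -/
theorem eq_or_eq_neg_of_xco' {Q₁ Q₂ : (freyQb P).Point} {x : Qb} (h₁ : xco P Q₁ = some x)
    (h₂ : xco P Q₂ = some x) : Q₂ = Q₁ ∨ Q₂ = -Q₁ := by
  cases Q₁ with
  | zero => cases h₁
  | some a y₁ hy₁ =>
  cases Q₂ with
  | zero => cases h₂
  | some b y₂ hy₂ =>
  have e1 : a = x := Option.some.inj h₁
  have e2 : b = x := Option.some.inj h₂
  subst e1
  subst e2
  have E1 := (nonsingular_iff P _ _).mp hy₁
  have E2 := (nonsingular_iff P _ _).mp hy₂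
  have hprod : (y₂ - y₁) * (y₂ - (-y₁ - b)) = 0 := by linear_combination E2 - E1
  rcases mul_eq_zero.mp hprod with h | h
  · left
    have hy : y₂ = y₁ := sub_eq_zero.mp h
    subst hy
    rfl
  · right
    have hy : y₂ = -y₁ - b := sub_eq_zero.mp h
    subst hy
    obtain ⟨h', he⟩ := neg_some' P hy₁
    rw [he]

/-- The field `xc_eq_none_iff` of `freyXModel`. -/
theorem xmodel_xc_eq_none_iff (Q : (freyQb P).Point) : xco P Q = none ↔ Q = 0 := by
  cases Q with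
  | zero => exact ⟨fun _ => rfl, fun _ => rfl⟩
  | some x y h => exact ⟨fun h' => (by cases h'), fun h' => (by cases h')⟩

/-- The field `xc_neg` of `freyXModel`. -/
theorem xmodel_xc_neg (Q : (freyQb P).Point) : xco P (-Q) = xco P Q := by
  cases Q with
  | zero => rfl
  | some x y h =>
    obtain ⟨h', he⟩ := neg_some' P h
    rw [he]
    rfl

/-- The field `add_sub` of `freyXModel`. -/
theorem xmodel_add_sub {Q₁ Q₂ : (freyQb P).Point} {x₁ x₂ : Qb} (h₁ : xco P Q₁ = some x₁)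
    (h₂ : xco P Q₂ = some x₂) (hne : x₁ ≠ x₂) :
    ∃ r₁ r₂, xco P (Q₁ + Q₂) = some r₁ ∧ xco P (Q₁ - Q₂) = some r₂ ∧
      r₁ + r₂ = (2 * (x₁ * x₂ + fa₄ P) * (x₁ + x₂) + fb₂ P * x₁ * x₂) / (x₁ - x₂) ^ 2 ∧
      r₁ * r₂ = (x₁ * x₂ - fa₄ P) ^ 2 / (x₁ - x₂) ^ 2 := by
  cases Q₁ with
  | zero => cases h₁
  | some a y₁ hy₁ =>
  cases Q₂ with
  | zero => cases h₂
  | some b y₂ hy₂ =>
  have e1 : a = x₁ := Option.some.inj h₁
  have e2 : b = x₂ := Option.some.inj h₂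
  subst e1 e2
  have E1 := (nonsingular_iff P _ _).mp hy₁
  have E2 := (nonsingular_iff P _ _).mp hy₂
  have hD : a - b ≠ 0 := sub_ne_zero.mpr hne
  refine ⟨_, _, xco_add_of_ne' P hy₁ hy₂ hne, xco_sub_of_ne' P hy₁ hy₂ hne, ?_, ?_⟩
  · rw [fb₂_eq]
    field_simp
    linear_combination 2 * E1 + 2 * E2
  · field_simp
    linear_combination
      (-a^3 + 2*a^2*b - a^2*fa₂ P + 2*a*b^2 + 4*a*b*fa₂ P + a*b + a*y₁ + a*fa₄ P - 2*b^3
        - 2*b^2*fa₂ P - b^2 - 2*b*y₂ + y₁^2 - 2*y₂^2) * E1 +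
      (-4*a^3 + 2*a^2*b - 4*a^2*fa₂ P - a^2 + 2*a*b^2 + 4*a*b*fa₂ P + a*b - 2*a*fa₄ P - b^3
        - b^2*fa₂ P + b*y₂ + b*fa₄ P + y₂^2) * E2

/-- The field `two` of `freyXModel`. -/
theorem xmodel_two {Q : (freyQb P).Point} {x : Qb} (h : xco P Q = some x) :
    (4 * x ^ 3 + fb₂ P * x ^ 2 + 4 * fa₄ P * x = 0 → Q + Q = 0) ∧
    (4 * x ^ 3 + fb₂ P * x ^ 2 + 4 * fa₄ P * x ≠ 0 →
      xco P (Q + Q) = some ((x ^ 2 - fa₄ P) ^ 2 / (4 * x ^ 3 + fb₂ P * x ^ 2 + 4 * fa₄ P * x))) := by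
  cases Q with
  | zero => cases h
  | some a y hy =>
  have e : a = x := Option.some.inj h
  subst e
  have E := (nonsingular_iff P _ _).mp hy
  have key : 4 * a ^ 3 + fb₂ P * a ^ 2 + 4 * fa₄ P * a = (2 * y + a) ^ 2 := by
    rw [fb₂_eq]; linear_combination (-4) * E
  rw [key]
  constructor
  · intro h0
    have h1 : 2 * y + a = 0 := by simpa using h0
    apply Point.add_self_of_Y_eq
    rw [negY_eq]; linear_combination h1
  · intro hne
    have h1 : 2 * y + a ≠ 0 := fun h => hne (by rw [h]; ring)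
    have hY : y ≠ (freyQb P).negY a y := by
      rw [negY_eq]; intro h2; apply h1; linear_combination h2
    rw [Point.add_self_of_Y_ne hY]
    show some ((freyQb P).addX a a ((freyQb P).slope a a y y)) = _
    rw [Affine.slope_of_Y_ne rfl hY, negY_eq, Affine.addX, Fermat.Agent.S05.frey_a₁, frey_a₂',
      frey_a₄']
    congr 1
    have hD : y - (-y - a) = 2 * y + a := by ring
    rw [hD]
    field_simp
    linear_combination (-(1 + 4 * fa₂ P + 8 * a)) * E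

/-- A sorry-free copy of `TwoAdic.freyXModel` (same `xc := xco P`). -/
def freyXModelH : XModel Qb (fb₂ P) (fa₄ P) (freyQb P).Point where
  xc := xco P
  xc_eq_none_iff := xmodel_xc_eq_none_iff P
  xc_neg := xmodel_xc_neg P
  eq_or_eq_neg := fun h₁ h₂ => eq_or_eq_neg_of_xco' P h₁ h₂
  add_sub := fun h₁ h₂ hne => xmodel_add_sub P h₁ h₂ hne
  two := fun h => xmodel_two P h

end Fermat.Agent.S13.TwoAdic.SlopeH
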