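import Mathlib
import Fermat.Agent.S13.TwoAdic.Val2

/-!
# S13 / TwoAdic / SlopeH (hedge, owner helper18): `sub_mem_G1_of_congr`

Independent proof of the frozen statement `Fermat.Agent.S13.TwoAdic.sub_mem_G1_of_congr`
(file `TwoAdic/Slope.lean`), using only the frozen statements of `Frey2.lean` and `Val2.lean`.
-/

set_option autoImplicit false

open WeierstrassCurve WeierstrassCurve.Affine

noncomputable section

namespace Fermat.Agent.S13.TwoAdic.SlopeH

open Fermat.Agent.S05 (freyQb cA cB)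
open Fermat.Agent.S13.TwoAdic

variable (P : FreyPackage) (A : ValuationSubring Qb)

/-- Pure valuation computation: if `v L > 1` and `a, b, c` are integral then
`v (L^2 + L - a - b - c) > 1`. -/
theorem congr_val_aux {L a b c : Qb} (hL : 1 < A.valuation L)
    (ha : A.valuation a ≤ 1) (hb : A.valuation b ≤ 1) (hc : A.valuation c ≤ 1) :
    1 < A.valuation (L ^ 2 + L - a - b - c) := by
  have hLpos : 0 < A.valuation L := lt_trans zero_lt_one hL
  have hLL : A.valuation L < A.valuation (L ^ 2) := by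
    rw [map_pow, pow_two]
    calc A.valuation L = 1 * A.valuation L := (one_mul _).symm
      _ < A.valuation L * A.valuation L := by
        exact mul_lt_mul_of_pos_right hL hLpos
  have h1 : A.valuation (L ^ 2 + L) = A.valuation (L ^ 2) :=
    Valuation.map_add_eq_of_lt_left _ hLL
  have hbig : 1 < A.valuation (L ^ 2) := lt_trans hL hLL
  have h2 : A.valuation (L ^ 2 + L - a) = A.valuation (L ^ 2) := by
    rw [Valuation.map_sub_eq_of_lt_left _ (by rw [h1]; exact lt_of_le_of_lt ha hbig), h1]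
  have h3 : A.valuation (L ^ 2 + L - a - b) = A.valuation (L ^ 2) := by
    rw [Valuation.map_sub_eq_of_lt_left _ (by rw [h2]; exact lt_of_le_of_lt hb hbig), h2]
  have h4 : A.valuation (L ^ 2 + L - a - b - c) = A.valuation (L ^ 2) := by
    rw [Valuation.map_sub_eq_of_lt_left _ (by rw [h3]; exact lt_of_le_of_lt hc hbig), h3]
  rw [h4]; exact hbig

/-- Same reduction (with unit `x`) ⇒ the difference is a nonzero element of `G1`. -/
theorem sub_mem_G1_of_congr (hA : A.LiesOverPrime 2) {x₁ y₁ x₂ y₂ : Qb}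
    (h₁ : (freyQb P).Nonsingular x₁ y₁) (h₂ : (freyQb P).Nonsingular x₂ y₂)
    (hne : (Point.some x₁ y₁ h₁ : (freyQb P).Point) ≠ Point.some x₂ y₂ h₂)
    (hx₁ : A.valuation x₁ = 1) (hy₁ : A.valuation y₁ ≤ 1)
    (hx : A.valuation (x₁ - x₂) < 1) (hy : A.valuation (y₁ - y₂) < 1) :
    ∃ x : Qb, xco P (Point.some x₁ y₁ h₁ - Point.some x₂ y₂ h₂) = some x ∧ 1 < A.valuation x := by
  have h2y : A.valuation (2 * y₁) < 1 := by
    rw [map_mul]
    calc A.valuation 2 * A.valuation y₁ ≤ A.valuation 2 * 1 := mul_le_mul' le_rfl hy₁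
      _ = A.valuation 2 := mul_one _
      _ < 1 := val_two_lt_one A hA
  have hK : A.valuation (2 * y₁ + x₁) = 1 := by
    rw [Valuation.map_add_eq_of_lt_right _ (by rw [hx₁]; exact h2y), hx₁]
  by_cases hxx : x₁ = x₂
  · exfalso
    subst hxx
    have e₁ := (nonsingular_iff P x₁ y₁).1 h₁
    have e₂ := (nonsingular_iff P x₁ y₂).1 h₂
    have hprod : (y₁ - y₂) * (y₁ + y₂ + x₁) = 0 := by linear_combination e₁ - e₂
    rcases mul_eq_zero.1 hprod with h | h
    · have hyy : y₁ = y₂ := sub_eq_zero.1 h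
      subst hyy
      exact hne rfl
    · have : y₁ - y₂ = 2 * y₁ + x₁ := by linear_combination (-1 : Qb) * h
      rw [this, hK] at hy
      exact lt_irrefl _ hy
  · refine ⟨_, xco_sub_of_ne P h₁ h₂ hxx, ?_⟩
    have hD0 : x₁ - x₂ ≠ 0 := sub_ne_zero.2 hxx
    have hN : A.valuation (y₁ + y₂ + x₂) = 1 := by
      have e : y₁ + y₂ + x₂ = (2 * y₁ + x₁) - (y₁ - y₂) - (x₁ - x₂) := by ring
      have s1 : A.valuation ((2 * y₁ + x₁) - (y₁ - y₂)) = 1 := by
        rw [Valuation.map_sub_eq_of_lt_left _ (by rw [hK]; exact hy), hK]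
      rw [e, Valuation.map_sub_eq_of_lt_left _ (by rw [s1]; exact hx), s1]
    have hL : 1 < A.valuation ((y₁ + y₂ + x₂) / (x₁ - x₂)) := by
      by_contra hcon
      have hcon : A.valuation ((y₁ + y₂ + x₂) / (x₁ - x₂)) ≤ 1 := not_lt.1 hcon
      have e : y₁ + y₂ + x₂ = (y₁ + y₂ + x₂) / (x₁ - x₂) * (x₁ - x₂) := by
        field_simp
      have : A.valuation (y₁ + y₂ + x₂) < 1 := by
        rw [e, map_mul]
        calc _ ≤ 1 * A.valuation (x₁ - x₂) := mul_le_mul' hcon le_rfl
          _ = A.valuation (x₁ - x₂) := one_mul _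
          _ < 1 := hx
      rw [hN] at this
      exact lt_irrefl _ this
    have hx₂ : A.valuation x₂ ≤ 1 := by
      have e : x₂ = x₁ - (x₁ - x₂) := by ring
      rw [e]
      exact Valuation.map_sub_le _ hx₁.le hx.le
    exact congr_val_aux A hL (val_fa₂_le P A) hx₁.le hx₂

end Fermat.Agent.S13.TwoAdic.SlopeH
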