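import Mathlib
import Fermat.Agent.S13.TwoAdic.Val2

/-!
# S13 / TwoAdic / SlopeH (hedge, owner helper18): `node_inertia`

Independent proof of the frozen statement `Fermat.Agent.S13.TwoAdic.node_inertia`
(file `TwoAdic/Slope.lean`), using only the frozen statements of `Frey2.lean` and `Val2.lean`.
-/

set_option autoImplicit false

open WeierstrassCurve WeierstrassCurve.Affine

noncomputable section

namespace Fermat.Agent.S13.TwoAdic.SlopeH

open Fermat.Agent.S05 (freyQb cA cB)
open Fermat.Agent.S13.TwoAdic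

variable (P : FreyPackage) (A : ValuationSubring Qb)

/-- Equality of affine points from equality of coordinates. -/
theorem node_point_ext {x y : Qb} (h : (freyQb P).Nonsingular x y) :
    ∀ (x' y' : Qb) (h' : (freyQb P).Nonsingular x' y'), x' = x → y' = y →
      (Point.some x' y' h' : (freyQb P).Point) = Point.some x y h := by
  rintro _ _ _ rfl rfl; rfl

/-- A root of `T² + T - a` with `a` integral is integral. -/
theorem node_root_int {r a : Qb} (hr : r ^ 2 + r - a = 0) (ha : A.valuation a ≤ 1) :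
    A.valuation r ≤ 1 := by
  by_contra hcon
  rw [not_le] at hcon
  have h1 : A.valuation (r + 1) = A.valuation r := by
    apply Valuation.map_add_eq_of_lt_left
    rw [map_one]; exact hcon
  have h2 : a = r * (r + 1) := by linear_combination -hr
  have h3 : A.valuation a = A.valuation r * A.valuation r := by
    rw [h2, map_mul, h1]
  have h4 : 1 < A.valuation r * A.valuation r := one_lt_mul'' hcon hcon
  rw [← h3] at h4
  exact absurd ha (not_le.mpr h4)

/-- Value group inequality: `w * d² = u²`, `0 < d ≤ u` gives `1 ≤ w`. -/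
theorem node_ord {Γ : Type*} [LinearOrderedCommGroupWithZero Γ] {w d u : Γ}
    (h : w * (d * d) = u * u) (hd : 0 < d) (hdu : d ≤ u) : 1 ≤ w := by
  by_contra hcon
  rw [not_le] at hcon
  have h1 : w * (d * d) < 1 * (d * d) :=
    mul_lt_mul_of_pos_right hcon (mul_pos hd hd)
  rw [one_mul, h] at h1
  have h2 : d * d ≤ u * u := mul_le_mul' hdu hdu
  exact absurd h2 (not_le.mpr h1)

/-- The core argument, for the root `t₁` to which the slope `y / x` is congruent. -/
theorem node_aux (σ : Gal) (hv : ∀ z : Qb, A.valuation (σ z) = A.valuation z)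
    {x y : Qb} (h : (freyQb P).Nonsingular x y) (hx0 : x ≠ 0) (hx1 : A.valuation x < 1)
    {t₁ t₂ : Qb} (ht : t₂ = -1 - t₁) (hroot : t₁ ^ 2 + t₁ - fa₂ P = 0) (hσ1 : σ t₁ = t₁)
    (hd : A.valuation (t₁ - t₂) = 1) (hlt : A.valuation (y / x - t₁) < 1) :
    σ • (Point.some x y h : (freyQb P).Point) = Point.some x y h ∨
      ∃ x' : Qb, xco P (σ • (Point.some x y h : (freyQb P).Point) - Point.some x y h) = some x' ∧
        1 ≤ A.valuation x' := by
  have hσ2 : σ t₂ = t₂ := by
    rw [ht, map_sub, map_neg, map_one, hσ1]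
  have hsx0 : σ x ≠ 0 := (map_ne_zero_iff σ σ.injective).mpr hx0
  have hvx : 0 < A.valuation x := zero_lt_iff.mpr ((Valuation.ne_zero_iff _).mpr hx0)
  have h2 : A.valuation (y / x - t₂) = 1 := by
    have e : y / x - t₂ = (t₁ - t₂) + (y / x - t₁) := by ring
    rw [e, Valuation.map_add_eq_of_lt_left _ (by rw [hd]; exact hlt), hd]
  have hs1 : A.valuation (σ y / σ x - t₁) < 1 := by
    have e : σ y / σ x - t₁ = σ (y / x - t₁) := by
      rw [map_sub, map_div₀, hσ1]
    rw [e, hv]; exact hlt
  have hs2 : A.valuation (σ y / σ x - t₂) = 1 := by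
    have e : σ y / σ x - t₂ = σ (y / x - t₂) := by
      rw [map_sub, map_div₀, hσ2]
    rw [e, hv]; exact h2
  obtain ⟨h', hs⟩ := smul_some' P σ h
  rw [hs]
  by_cases hxx : σ x = x
  · have eq1 := (nonsingular_iff P (σ x) (σ y)).1 h'
    have eq2 := (nonsingular_iff P x y).1 h
    rw [hxx] at eq1
    have hmul : (σ y - y) * (σ y + y + x) = 0 := by linear_combination eq1 - eq2
    rcases mul_eq_zero.mp hmul with h0 | h0
    · left
      exact node_point_ext P h _ _ h' hxx (sub_eq_zero.mp h0)
    · exfalso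
      have e : σ y / σ x - t₁ = -(y / x - t₂) := by
        rw [hxx, ht]
        field_simp
        linear_combination h0
      rw [e, Valuation.map_neg, h2] at hs1
      exact lt_irrefl _ hs1
  · right
    refine ⟨_, xco_sub_of_ne P h' h hxx, ?_⟩
    have hD : σ x - x ≠ 0 := sub_ne_zero.mpr hxx
    have hvD : 0 < A.valuation (σ x - x) := zero_lt_iff.mpr ((Valuation.ne_zero_iff _).mpr hD)
    have hDle : A.valuation (σ x - x) ≤ A.valuation x :=
      Valuation.map_sub_le _ (le_of_eq (hv x)) le_rfl
    set L : Qb := (σ y + y + x) / (σ x - x) with hL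
    have hL1 : (L - t₁) * (σ x - x) = (y / x - t₂) * x + (σ y / σ x - t₁) * σ x := by
      rw [hL, ht]; field_simp; ring
    have hL2 : (L - t₂) * (σ x - x) = (σ y / σ x - t₂) * σ x + (y / x - t₁) * x := by
      rw [hL, ht]; field_simp; ring
    have hv1 : A.valuation ((L - t₁) * (σ x - x)) = A.valuation x := by
      rw [hL1, Valuation.map_add_eq_of_lt_left]
      · rw [map_mul, h2, one_mul]
      · rw [map_mul, map_mul, h2, one_mul, hv x]
        exact mul_lt_of_lt_one_left hvx hs1
    have hv2 : A.valuation ((L - t₂) * (σ x - x)) = A.valuation x := by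
      rw [hL2, Valuation.map_add_eq_of_lt_left]
      · rw [map_mul, hs2, one_mul, hv x]
      · rw [map_mul, map_mul, hs2, one_mul, hv x]
        exact mul_lt_of_lt_one_left hvx hlt
    have hw : 1 ≤ A.valuation ((L - t₁) * (L - t₂)) := by
      apply node_ord (d := A.valuation (σ x - x)) (u := A.valuation x) _ hvD hDle
      have e : A.valuation ((L - t₁) * (L - t₂)) *
          (A.valuation (σ x - x) * A.valuation (σ x - x)) =
          A.valuation (((L - t₁) * (σ x - x)) * ((L - t₂) * (σ x - x))) := by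
        rw [← map_mul, ← map_mul]; congr 1; ring
      rw [e, map_mul, hv1, hv2]
    have hsum : A.valuation (σ x + x) < A.valuation ((L - t₁) * (L - t₂)) := by
      refine lt_of_le_of_lt (Valuation.map_add_le _ (le_of_eq (hv x)) le_rfl) ?_
      exact lt_of_lt_of_le hx1 hw
    have e : L ^ 2 + L - fa₂ P - σ x - x = (L - t₁) * (L - t₂) - (σ x + x) := by
      rw [ht]; linear_combination hroot
    rw [e, Valuation.map_sub_eq_of_lt_left _ hsum]
    exact hw

/-- Points reducing to the node: if `v a₄ < v x < 1` and `σ` is in the inertia group, then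
`σ Q = Q` or `σ Q - Q` has `v x' ≥ 1`. -/
theorem node_inertia (hA : A.LiesOverPrime 2) (σ : Gal) (hσ : σ ∈ A.inertiaSubgroupIn ℚ)
    {x y : Qb} (h : (freyQb P).Nonsingular x y) (hx1 : A.valuation x < 1)
    (hx2 : A.valuation (fa₄ P) < A.valuation x) :
    σ • (Point.some x y h : (freyQb P).Point) = Point.some x y h ∨
      ∃ x' : Qb, xco P (σ • (Point.some x y h : (freyQb P).Point) - Point.some x y h) = some x' ∧
        1 ≤ A.valuation x' := by
  obtain ⟨hv, hin⟩ := Fermat.Agent.S05.inertia_val A σ hσ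
  have hvx : 0 < A.valuation x := lt_of_le_of_lt zero_le hx2
  have hx0 : x ≠ 0 := (Valuation.ne_zero_iff _).mp hvx.ne'
  obtain ⟨s, hs⟩ := IsAlgClosed.exists_pow_nat_eq (fb₂ P) (n := 2) (by norm_num)
  have hs' : s ^ 2 = 1 + 4 * fa₂ P := by rw [hs, fb₂_eq]
  set t₁ : Qb := (-1 + s) / 2 with ht₁
  set t₂ : Qb := -1 - t₁ with ht₂
  have hroot1 : t₁ ^ 2 + t₁ - fa₂ P = 0 := by
    rw [ht₁]; linear_combination (1 / 4 : Qb) * hs'
  have hroot2 : t₂ ^ 2 + t₂ - fa₂ P = 0 := by
    rw [ht₂]; linear_combination hroot1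
  have hdiff : t₁ - t₂ = s := by rw [ht₂, ht₁]; ring
  have hvs : A.valuation s = 1 := by
    have h1 : A.valuation s ^ 2 = 1 := by rw [← map_pow, hs, val_fb₂ P A hA]
    rcases lt_trichotomy (A.valuation s) 1 with hl | he | hg
    · exact absurd h1 (ne_of_lt (pow_lt_one₀ zero_le hl (by norm_num)))
    · exact he
    · exact absurd h1 (ne_of_gt (one_lt_pow₀ hg (by norm_num)))
  have hd : A.valuation (t₁ - t₂) = 1 := by rw [hdiff, hvs]
  have hd' : A.valuation (t₂ - t₁) = 1 := by rw [Valuation.map_sub_swap, hd]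
  have hi1 : A.valuation t₁ ≤ 1 := node_root_int A hroot1 (val_fa₂_le P A)
  -- `σ` fixes `t₁`
  have hσ1 : σ t₁ = t₁ := by
    obtain ⟨m, hm⟩ := fa₂_int P
    have hσa : σ (fa₂ P) = fa₂ P := by rw [hm, map_intCast]
    have hr : σ t₁ ^ 2 + σ t₁ - fa₂ P = 0 := by
      have := congrArg σ hroot1
      rw [map_sub, map_add, map_pow, hσa, map_zero] at this
      exact this
    have hmul : (σ t₁ - t₁) * (σ t₁ - t₂) = 0 := by
      rw [ht₂]; linear_combination hr - hroot1
    rcases mul_eq_zero.mp hmul with h0 | h0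
    · exact sub_eq_zero.mp h0
    · exfalso
      have h3 := hin t₁ hi1
      rw [sub_eq_zero.mp h0, hd'] at h3
      exact lt_irrefl _ h3
  have hσ2 : σ t₂ = t₂ := by
    rw [ht₂, map_sub, map_neg, map_one, hσ1]
  -- the slope
  have eq := (nonsingular_iff P x y).1 h
  have hprod : (y / x - t₁) * (y / x - t₂) = x + fa₄ P / x := by
    rw [ht₂]
    field_simp
    linear_combination eq - x ^ 2 * hroot1
  have hvprod : A.valuation (y / x - t₁) * A.valuation (y / x - t₂) < 1 := by
    rw [← map_mul, hprod]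
    apply Valuation.map_add_lt _ hx1
    rw [map_div₀]
    exact (div_lt_one₀ hvx).mpr hx2
  rcases lt_or_ge (A.valuation (y / x - t₁)) 1 with hlt | hge
  · exact node_aux P A σ hv h hx0 hx1 ht₂ hroot1 hσ1 hd hlt
  · have hlt2 : A.valuation (y / x - t₂) < 1 := by
      by_contra hcon
      rw [not_lt] at hcon
      exact absurd hvprod (not_lt.mpr (one_le_mul_of_one_le_of_one_le hge hcon))
    exact node_aux P A σ hv h hx0 hx1 (by rw [ht₂]; ring) hroot2 hσ2 hd' hlt2

end Fermat.Agent.S13.TwoAdic.SlopeH
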